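import Mathlib.NumberTheory.ModularForms.LevelOne.DimensionFormula
import Mathlib.NumberTheory.ModularForms.LevelOne.GradedRing

/-!
# Level-one structure lemmas (P-DIM subtask DIM-8)

* `levelOne_decomp`: every level-one modular form of positive weight `m` is
  `E₄ * a + E₆ * b` with `a`, `b` level-one forms of weights `m - 4`, `m - 6`.
* `levelOne_exists_ne_zero_at`: for even `m ≥ 4` and a point `z` with `E₄ z ≠ 0`, `E₆ z ≠ 0`
  there is a level-one form of weight `m` taking the value `1` at `z`.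
* `levelOne_exists_one_at_infty`: for even `m ≥ 4` there is a level-one form of weight `m`
  tending to `1` at `i∞`.
* `finrank_levelOne_twelve` ... `finrank_levelOne_twentyfour`: small dimensions.
-/

set_option autoImplicit false

open UpperHalfPlane ModularForm MatrixGroups EisensteinSeries ModularFormClass Filter
open scoped Topology

noncomputable section

namespace Fermat.Agent.H96

/-- A level-one modular form tends to the constant term of its `q`-expansion at `i∞`. -/
theorem tendsto_atImInfty_coeff_zero {k : ℤ} (f : ModularForm 𝒮ℒ k) :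
    Tendsto f atImInfty (𝓝 ((qExpansion 1 f).coeff 0)) := by
  have hana : AnalyticAt ℂ (cuspFunction 1 f) 0 :=
    ModularFormClass.analyticAt_cuspFunction_zero f one_pos one_mem_strictPeriods_SL
  have hper : Function.Periodic ((f : ℍ → ℂ) ∘ UpperHalfPlane.ofComplex) 1 :=
    SlashInvariantFormClass.periodic_comp_ofComplex f one_mem_strictPeriods_SL
  have h0 : (qExpansion 1 f).coeff 0 = cuspFunction 1 f 0 := by
    rw [UpperHalfPlane.qExpansion_coeff_zero one_pos hana hper,
      UpperHalfPlane.cuspFunction_apply_zero one_pos hana hper]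
  have hcomp : (cuspFunction 1 f ∘ fun τ : ℍ ↦ Function.Periodic.qParam 1 τ : ℍ → ℂ) = f := by
    funext τ
    simpa using SlashInvariantFormClass.eq_cuspFunction f τ one_mem_strictPeriods_SL one_ne_zero
  rw [h0]
  have := hana.continuousAt.tendsto.comp (UpperHalfPlane.qParam_tendsto_atImInfty one_pos)
  rwa [hcomp] at this

/-- A level-one modular form with vanishing constant term is `Δ` times a form of weight
`k - 12`. -/
theorem exists_eq_discriminant_mul {k : ℤ} (f : ModularForm 𝒮ℒ k)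
    (h0 : (qExpansion 1 f).coeff 0 = 0) :
    ∃ h : ModularForm 𝒮ℒ (k - 12), ∀ z, f z = ModularForm.discriminant z * h z := by
  refine ⟨CuspForm.discriminantEquiv (toCuspForm f h0), fun z => ?_⟩
  rw [discriminant_mul_discriminantEquiv_apply]
  rfl


/-- Decomposition `f = E₄ * a + E₆ * b` for even natural weight `n ≥ 8`. -/
theorem levelOne_decomp_of_eight_le (n : ℕ) (hn : 8 ≤ n) (hne : Even n)
    (f : ModularForm 𝒮ℒ (n : ℤ)) :
    ∃ (a : ModularForm 𝒮ℒ ((n : ℤ) - 4)) (b : ModularForm 𝒮ℒ ((n : ℤ) - 6)),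
      ∀ z, f z = E₄ z * a z + E₆ z * b z := by
  have hk : 3 ≤ n - 4 := by omega
  have hke : Even (n - 4) := by
    rcases hne with ⟨r, hr⟩
    exact ⟨r - 2, by omega⟩
  -- the Eisenstein series of weight `n - 4`
  let G : ModularForm 𝒮ℒ ((n - 4 : ℕ) : ℤ) := E hk
  have hG0 : (qExpansion 1 G).coeff 0 = 1 := E_qExpansion_coeff_zero hk hke
  have hw : (4 : ℤ) + ((n - 4 : ℕ) : ℤ) = (n : ℤ) := by omega
  let M : ModularForm 𝒮ℒ (n : ℤ) := ModularForm.mcast hw (E₄.mul G)
  have hM0 : (qExpansion 1 M).coeff 0 = 1 := by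
    have h1 : qExpansion 1 M = qExpansion 1 E₄ * qExpansion 1 G := by
      change qExpansion 1 (E₄.mul G) = _
      exact ModularForm.qExpansion_mul one_pos one_mem_strictPeriods_SL E₄ G
    rw [h1]
    simp [PowerSeries.coeff_mul, hG0, E_qExpansion_coeff_zero _ ⟨2, rfl⟩]
  set c : ℂ := (qExpansion 1 f).coeff 0 with hc
  let g : ModularForm 𝒮ℒ (n : ℤ) := f - c • M
  have hg0 : (qExpansion 1 g).coeff 0 = 0 := by
    have h1 : qExpansion 1 g = qExpansion 1 f - c • qExpansion 1 M := by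
      change qExpansion 1 ((f : ℍ → ℂ) - ((c • M : ModularForm 𝒮ℒ (n : ℤ)) : ℍ → ℂ)) = _
      rw [ModularForm.qExpansion_sub one_pos one_mem_strictPeriods_SL f (c • M)]
      congr 1
      exact ModularForm.qExpansion_smul one_pos one_mem_strictPeriods_SL c M
    rw [h1, map_sub, PowerSeries.coeff_smul, hM0, smul_eq_mul, mul_one, sub_self]
  obtain ⟨h, hh⟩ := exists_eq_discriminant_mul g hg0
  have hwa : ((n - 4 : ℕ) : ℤ) = (n : ℤ) - 4 := by omega
  have hwa' : (4 : ℤ) + (4 + ((n : ℤ) - 12)) = (n : ℤ) - 4 := by ring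
  have hwb : (6 : ℤ) + ((n : ℤ) - 12) = (n : ℤ) - 6 := by ring
  let a : ModularForm 𝒮ℒ ((n : ℤ) - 4) := c • ModularForm.mcast hwa G
      + (1 / 1728 : ℂ) • ModularForm.mcast hwa' (E₄.mul (E₄.mul h))
  let b : ModularForm 𝒮ℒ ((n : ℤ) - 6) := (-(1 / 1728 : ℂ)) • ModularForm.mcast hwb (E₆.mul h)
  refine ⟨a, b, fun z => ?_⟩
  have hfz : f z = c * (E₄ z * G z) + ModularForm.discriminant z * h z := by
    have := hh z
    have e1 : g z = f z - c * (E₄ z * G z) := rfl
    rw [e1] at this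
    linear_combination this
  have e2 : a z = c * G z + (1 / 1728 : ℂ) * (E₄ z * (E₄ z * h z)) := rfl
  have e3 : b z = (-(1 / 1728 : ℂ)) * (E₆ z * h z) := rfl
  rw [hfz, e2, e3, discriminant_eq_E₄_cube_sub_E₆_sq z]
  ring

/-- **DIM-8 (a).** Every level-one modular form of positive weight `m` is of the form
`E₄ * a + E₆ * b` with `a`, `b` level-one modular forms of weights `m - 4` and `m - 6`. -/
theorem levelOne_decomp {m : ℤ} (hm : 0 < m) (f : ModularForm 𝒮ℒ m) :
    ∃ (a : ModularForm 𝒮ℒ (m - 4)) (b : ModularForm 𝒮ℒ (m - 6)),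
      ∀ z, f z = E₄ z * a z + E₆ z * b z := by
  rcases Int.even_or_odd m with hme | hmo
  swap
  · refine ⟨0, 0, fun z => ?_⟩
    rw [ModularForm.levelOne_odd_weight_eq_zero hmo f]
    simp
  lift m to ℕ using hm.le
  have hme' : Even m := by exact_mod_cast hme
  have hm' : 0 < m := by exact_mod_cast hm
  by_cases h8 : 8 ≤ m
  · exact levelOne_decomp_of_eight_le m h8 hme' f
  have hcases : m = 2 ∨ m = 4 ∨ m = 6 := by
    rcases hme' with ⟨r, hr⟩
    omega
  rcases hcases with rfl | rfl | rfl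
  · refine ⟨0, 0, fun z => ?_⟩
    have hf : f = 0 := rank_zero_iff_forall_zero.mp levelOne_weight_two_rank_zero f
    rw [hf]
    simp
  · obtain ⟨c, hc⟩ : ∃ c : ℂ, c • E₄ = f :=
      (finrank_eq_one_iff_of_nonzero' E₄ (E_ne_zero _ ⟨2, rfl⟩)).mp
        (Module.rank_eq_one_iff_finrank_eq_one.mp levelOne_weight_four_rank_one) f
    let a : ModularForm 𝒮ℒ (((4 : ℕ) : ℤ) - 4) :=
      ModularForm.mcast (by norm_num) (c • (1 : ModularForm 𝒮ℒ 0))
    refine ⟨a, 0, fun z => ?_⟩
    have e1 : a z = c * 1 := rfl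
    have e2 : f z = c * E₄ z := by rw [← hc]; rfl
    rw [e1, e2]
    simp
    ring
  · obtain ⟨c, hc⟩ : ∃ c : ℂ, c • E₆ = f :=
      (finrank_eq_one_iff_of_nonzero' E₆ (E_ne_zero _ ⟨3, rfl⟩)).mp
        (Module.rank_eq_one_iff_finrank_eq_one.mp levelOne_weight_six_rank_one) f
    let b : ModularForm 𝒮ℒ (((6 : ℕ) : ℤ) - 6) :=
      ModularForm.mcast (by norm_num) (c • (1 : ModularForm 𝒮ℒ 0))
    refine ⟨0, b, fun z => ?_⟩
    have e1 : b z = c * 1 := rfl
    have e2 : f z = c * E₆ z := by rw [← hc]; rfl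
    rw [e1, e2]
    simp
    ring

/-- For even `m ≥ 4` and `z` with `E₄ z ≠ 0`, `E₆ z ≠ 0` there is a level-one form of
weight `m` not vanishing at `z` (a monomial in `E₄`, `E₆`). -/
theorem levelOne_exists_apply_ne_zero (z : ℍ) (h4 : E₄ z ≠ 0) (h6 : E₆ z ≠ 0) :
    ∀ (m : ℕ), 4 ≤ m → Even m → ∃ g : ModularForm 𝒮ℒ (m : ℤ), g z ≠ 0 := by
  intro m
  induction m using Nat.strong_induction_on with
  | h m ih =>
    intro hm hme
    by_cases h8 : 8 ≤ m
    · have hme' : Even (m - 4) := by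
        rcases hme with ⟨r, hr⟩
        exact ⟨r - 2, by omega⟩
      obtain ⟨g, hg⟩ := ih (m - 4) (by omega) (by omega) hme'
      have hw : (4 : ℤ) + ((m - 4 : ℕ) : ℤ) = (m : ℤ) := by omega
      refine ⟨ModularForm.mcast hw (E₄.mul g), ?_⟩
      change E₄ z * g z ≠ 0
      exact mul_ne_zero h4 hg
    · have hcases : m = 4 ∨ m = 6 := by
        rcases hme with ⟨r, hr⟩
        omega
      rcases hcases with rfl | rfl
      · exact ⟨E₄, h4⟩
      · exact ⟨E₆, h6⟩

/-- **DIM-8 (b).** For even `m ≥ 4` and `z` with `E₄ z ≠ 0`, `E₆ z ≠ 0` there is a level-one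
form of weight `m` taking the value `1` at `z`. -/
theorem levelOne_exists_ne_zero_at (m : ℕ) (hm : 4 ≤ m) (hme : Even m) (z : ℍ)
    (h4 : E₄ z ≠ 0) (h6 : E₆ z ≠ 0) : ∃ g : ModularForm 𝒮ℒ (m : ℤ), g z = 1 := by
  obtain ⟨g, hg⟩ := levelOne_exists_apply_ne_zero z h4 h6 m hm hme
  refine ⟨(g z)⁻¹ • g, ?_⟩
  change (g z)⁻¹ * g z = 1
  exact inv_mul_cancel₀ hg

/-- **DIM-8 (c).** For even `m ≥ 4` there is a level-one form of weight `m` tending to `1` at
`i∞` (the normalised Eisenstein series). -/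
theorem levelOne_exists_one_at_infty (m : ℕ) (hm : 4 ≤ m) (hme : Even m) :
    ∃ g : ModularForm 𝒮ℒ (m : ℤ), Tendsto g atImInfty (𝓝 1) := by
  have hk : 3 ≤ m := by omega
  refine ⟨E hk, ?_⟩
  have := tendsto_atImInfty_coeff_zero (E hk)
  rwa [E_qExpansion_coeff_zero hk hme] at this

/-- Variant of `levelOne_exists_one_at_infty` recording the constant term of the
`q`-expansion. -/
theorem levelOne_exists_coeff_zero_eq_one (m : ℕ) (hm : 4 ≤ m) (hme : Even m) :
    ∃ g : ModularForm 𝒮ℒ (m : ℤ), (qExpansion 1 g).coeff 0 = 1 :=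
  ⟨E (by omega : 3 ≤ m), E_qExpansion_coeff_zero _ hme⟩

/-- `finrank` form of Mathlib's level-one dimension formula. -/
theorem finrank_levelOne (k : ℕ) (hk2 : Even k) :
    Module.finrank ℂ (ModularForm 𝒮ℒ (k : ℤ)) =
      if k ≡ 2 [MOD 12] then k / 12 else k / 12 + 1 := by
  have h := ModularForm.dimension_level_one k hk2
  unfold Module.finrank
  rw [h]
  exact Cardinal.toNat_natCast _

/-- **DIM-8 (d).** Small dimensions. -/
theorem finrank_levelOne_twelve : Module.finrank ℂ (ModularForm 𝒮ℒ 12) = 2 :=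
  (finrank_levelOne 12 ⟨6, rfl⟩).trans (by decide)

theorem finrank_levelOne_fourteen : Module.finrank ℂ (ModularForm 𝒮ℒ 14) = 1 :=
  (finrank_levelOne 14 ⟨7, rfl⟩).trans (by decide)

theorem finrank_levelOne_sixteen : Module.finrank ℂ (ModularForm 𝒮ℒ 16) = 2 :=
  (finrank_levelOne 16 ⟨8, rfl⟩).trans (by decide)

theorem finrank_levelOne_eighteen : Module.finrank ℂ (ModularForm 𝒮ℒ 18) = 2 :=
  (finrank_levelOne 18 ⟨9, rfl⟩).trans (by decide)

theorem finrank_levelOne_twenty : Module.finrank ℂ (ModularForm 𝒮ℒ 20) = 2 :=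
  (finrank_levelOne 20 ⟨10, rfl⟩).trans (by decide)

theorem finrank_levelOne_twentytwo : Module.finrank ℂ (ModularForm 𝒮ℒ 22) = 2 :=
  (finrank_levelOne 22 ⟨11, rfl⟩).trans (by decide)

theorem finrank_levelOne_twentyfour : Module.finrank ℂ (ModularForm 𝒮ℒ 24) = 3 :=
  (finrank_levelOne 24 ⟨12, rfl⟩).trans (by decide)

end Fermat.Agent.H96
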