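import Fermat.Agent.H96.LevelOneStructure

/-!
# Level-one modular functions are polynomials in `j`

* `levelOne_eq_discriminant_pow_mul_poly`: every level-one modular form of weight `12 n` is
  `Δ ^ n * P(j)` for a polynomial `P` of degree at most `n`, where `j = E₄ ^ 3 / Δ`.
* `exists_polynomial_j`: a holomorphic `SL(2,ℤ)`-invariant function `f` on the upper half plane
  such that `Δ ^ n * f` is bounded at `i∞` is a polynomial of degree at most `n` in `j`.
* `exists_polynomial_j_of_S_T`: the same with invariance only assumed for `S` and `T`.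
* `polynomial_j_eq_zero`: a polynomial vanishing on all values of `j` is zero (uniqueness).
-/

set_option autoImplicit false

open UpperHalfPlane ModularForm MatrixGroups EisensteinSeries ModularFormClass Filter
open scoped Topology Manifold

noncomputable section

namespace Fermat.Agent.H96

/-- `E₄ → 1` at `i∞`. -/
theorem tendsto_E4_one : Tendsto (E₄ : ℍ → ℂ) atImInfty (𝓝 1) := by
  have h := tendsto_atImInfty_coeff_zero E₄
  rwa [E_qExpansion_coeff_zero _ ⟨2, rfl⟩] at h

/-- The constant term of the `q`-expansion of a level-one form is its limit at `i∞`. -/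
theorem coeff_zero_eq_of_tendsto {k : ℤ} (f : ModularForm 𝒮ℒ k) {c : ℂ}
    (h : Tendsto f atImInfty (𝓝 c)) : (qExpansion 1 f).coeff 0 = c :=
  tendsto_nhds_unique (tendsto_atImInfty_coeff_zero f) h

/-- Every level-one modular form of weight `12 n` is `Δ ^ n` times a polynomial of degree
at most `n` in `j = E₄ ^ 3 / Δ`. -/
theorem levelOne_eq_discriminant_pow_mul_poly (n : ℕ) :
    ∀ g : ModularForm 𝒮ℒ (12 * (n : ℤ)),
      ∃ P : Polynomial ℂ, P.natDegree ≤ n ∧
        ∀ z, g z = discriminant z ^ n * P.eval (E₄ z ^ 3 / discriminant z) := by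
  induction n with
  | zero =>
    intro g
    let g' : ModularForm 𝒮ℒ 0 := ModularForm.mcast (by simp) g
    obtain ⟨c, hc⟩ := levelOne_weight_zero_const g'
    refine ⟨Polynomial.C c, by simp, fun z => ?_⟩
    have : g z = c := congrFun hc z
    simp [this]
  | succ n ih =>
    intro g
    -- the form `E₄ ^ (3 (n + 1))` of weight `12 (n + 1)`
    let F : ModularForm 𝒮ℒ (12 * ((n + 1 : ℕ) : ℤ)) :=
      ModularForm.mcast (by push_cast; ring) (E₄.pow (3 * (n + 1)))
    have hF : ∀ z, F z = E₄ z ^ (3 * (n + 1)) := fun z => by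
      change (E₄.pow (3 * (n + 1))) z = _
      rw [ModularForm.coe_pow]
      rfl
    set c : ℂ := (qExpansion 1 g).coeff 0 with hc
    let g' : ModularForm 𝒮ℒ (12 * ((n + 1 : ℕ) : ℤ)) := g - c • F
    have hg' : ∀ z, g' z = g z - c * E₄ z ^ (3 * (n + 1)) := fun z => by
      change g z - c * F z = _
      rw [hF]
    have hlim : Tendsto g' atImInfty (𝓝 0) := by
      have h1 : Tendsto (fun z => g z - c * E₄ z ^ (3 * (n + 1))) atImInfty
          (𝓝 (c - c * 1 ^ (3 * (n + 1)))) :=
        (tendsto_atImInfty_coeff_zero g).sub ((tendsto_E4_one.pow _).const_mul c)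
      have h2 : c - c * 1 ^ (3 * (n + 1)) = 0 := by simp
      rw [h2] at h1
      exact h1.congr fun z => (hg' z).symm
    obtain ⟨h, hh⟩ := exists_eq_discriminant_mul g' (coeff_zero_eq_of_tendsto g' hlim)
    let h' : ModularForm 𝒮ℒ (12 * (n : ℤ)) := ModularForm.mcast (by push_cast; ring) h
    obtain ⟨P₁, hP₁, hPh⟩ := ih h'
    refine ⟨Polynomial.C c * Polynomial.X ^ (n + 1) + P₁, ?_, fun z => ?_⟩
    · refine (Polynomial.natDegree_add_le _ _).trans (max_le ?_ (hP₁.trans (Nat.le_succ n)))
      exact Polynomial.natDegree_C_mul_X_pow_le c (n + 1)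
    · have hD : discriminant z ≠ 0 := discriminant_ne_zero z
      have e1 : g z = c * E₄ z ^ (3 * (n + 1)) + discriminant z * h z := by
        have := hh z
        rw [hg'] at this
        linear_combination this
      have e2 : h z = discriminant z ^ n * P₁.eval (E₄ z ^ 3 / discriminant z) := hPh z
      rw [e1, e2]
      simp only [Polynomial.eval_add, Polynomial.eval_mul, Polynomial.eval_C, Polynomial.eval_pow,
        Polynomial.eval_X]
      rw [div_pow]
      field_simp
      ring

/-- A holomorphic function on `ℍ` which is invariant under weight-`k` slashing by `SL(2,ℤ)`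
and bounded at `i∞` is a level-one modular form. -/
def levelOneOfBounded {k : ℤ} (G : ℍ → ℂ) (hG : MDiff G)
    (hinv : ∀ γ : SL(2, ℤ), G ∣[k] γ = G) (hbdd : IsBoundedAtImInfty G) :
    ModularForm 𝒮ℒ k where
  toFun := G
  slash_action_eq' := by
    rintro γ ⟨γ', rfl⟩
    exact hinv γ'
  holo' := hG
  bdd_at_cusps' := by
    intro c hc
    rw [OnePoint.isBoundedAt_iff_forall_SL2Z hc]
    intro γ _
    rw [hinv γ]
    exact hbdd

@[simp] theorem coe_levelOneOfBounded {k : ℤ} (G : ℍ → ℂ) (hG : MDiff G)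
    (hinv : ∀ γ : SL(2, ℤ), G ∣[k] γ = G) (hbdd : IsBoundedAtImInfty G) :
    ⇑(levelOneOfBounded G hG hinv hbdd) = G := rfl

/-- A function invariant under `z ↦ γ • z` is invariant under the weight-zero slash action. -/
theorem slash_zero_eq_of_invariant {f : ℍ → ℂ} (γ : SL(2, ℤ))
    (hinv : ∀ z : ℍ, f (γ • z) = f z) : f ∣[(0 : ℤ)] γ = f := by
  funext z
  rw [ModularForm.SL_slash_apply, hinv z]
  simp

/-- **Polynomial-in-`j` lemma.** A holomorphic `SL(2,ℤ)`-invariant function `f` on the upper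
half plane with `Δ ^ n * f` bounded at `i∞` is a polynomial of degree at most `n` in
`j = E₄ ^ 3 / Δ`. -/
theorem exists_polynomial_j {f : ℍ → ℂ} (hf : MDiff f)
    (hinv : ∀ (γ : SL(2, ℤ)) (z : ℍ), f (γ • z) = f z) (n : ℕ)
    (hbdd : IsBoundedAtImInfty (fun z => discriminant z ^ n * f z)) :
    ∃ P : Polynomial ℂ, P.natDegree ≤ n ∧
      ∀ z, f z = P.eval (E₄ z ^ 3 / discriminant z) := by
  -- `Δ ^ n` as a modular form of weight `12 n`
  let D : ModularForm 𝒮ℒ 12 := CuspForm.toModularFormₗ CuspForm.discriminant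
  let Dn : ModularForm 𝒮ℒ (12 * (n : ℤ)) := ModularForm.mcast (by ring) (D.pow n)
  have hDn : (Dn : ℍ → ℂ) = fun z => discriminant z ^ n := by
    change ⇑(D.pow n) = _
    rw [ModularForm.coe_pow]
    rfl
  have hG : (fun z => discriminant z ^ n * f z) = (Dn : ℍ → ℂ) * f := by
    rw [hDn]
    rfl
  have hslash : ∀ γ : SL(2, ℤ),
      (fun z => discriminant z ^ n * f z) ∣[12 * (n : ℤ)] γ
        = fun z => discriminant z ^ n * f z := by
    intro γ
    rw [hG]
    have h1 := mul_slash_SL2 (12 * (n : ℤ)) 0 γ (Dn : ℍ → ℂ) f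
    rw [add_zero] at h1
    rw [h1, slash_zero_eq_of_invariant γ (hinv γ)]
    congr 1
    have hγ : (γ : GL (Fin 2) ℝ) ∈ 𝒮ℒ := ⟨γ, rfl⟩
    rw [SL_slash]
    exact SlashInvariantFormClass.slash_action_eq Dn _ hγ
  have hmd : MDiff (fun z => discriminant z ^ n * f z) := by
    rw [hG]
    exact Dn.holo'.mul hf
  obtain ⟨P, hP, hPg⟩ :=
    levelOne_eq_discriminant_pow_mul_poly n (levelOneOfBounded _ hmd hslash hbdd)
  refine ⟨P, hP, fun z => ?_⟩
  have hD : discriminant z ^ n ≠ 0 := pow_ne_zero _ (discriminant_ne_zero z)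
  have := hPg z
  rw [coe_levelOneOfBounded] at this
  exact mul_left_cancel₀ hD this

/-- Invariance under `S` and `T` implies invariance under `SL(2,ℤ)`. -/
theorem invariant_of_S_T {f : ℍ → ℂ} (hS : ∀ z : ℍ, f (ModularGroup.S • z) = f z)
    (hT : ∀ z : ℍ, f (ModularGroup.T • z) = f z) (γ : SL(2, ℤ)) (z : ℍ) : f (γ • z) = f z := by
  have h := SlashInvariantForm.slash_action_generators_SL2Z (f := f) (k := 0)
    (slash_zero_eq_of_invariant _ hS) (slash_zero_eq_of_invariant _ hT) γ
  have h1 := congrFun h z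
  rw [ModularForm.SL_slash_apply] at h1
  rw [← h1]
  simp

/-- The polynomial-in-`j` lemma with invariance only assumed for the generators `S`, `T`. -/
theorem exists_polynomial_j_of_S_T {f : ℍ → ℂ} (hf : MDiff f)
    (hS : ∀ z : ℍ, f (ModularGroup.S • z) = f z)
    (hT : ∀ z : ℍ, f (ModularGroup.T • z) = f z) (n : ℕ)
    (hbdd : IsBoundedAtImInfty (fun z => discriminant z ^ n * f z)) :
    ∃ P : Polynomial ℂ, P.natDegree ≤ n ∧
      ∀ z, f z = P.eval (E₄ z ^ 3 / discriminant z) :=
  exists_polynomial_j hf (invariant_of_S_T hS hT) n hbdd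

/-- Form-level version of the polynomial-in-`j` lemma, with a free weight `k = 12 m`. -/
theorem exists_polynomial_j_of_form (m : ℕ) (k : ℤ) (hk : k = 12 * m) (g : ModularForm 𝒮ℒ k) :
    ∃ P : Polynomial ℂ, P.natDegree ≤ m ∧
      ∀ z, g z = discriminant z ^ m * P.eval (E₄ z ^ 3 / discriminant z) := by
  subst hk
  exact levelOne_eq_discriminant_pow_mul_poly m g

/-- The polynomial-in-`j` lemma with invariance under `S` and under `z ↦ z + 1`. -/
theorem exists_polynomial_j_of_S_vadd {f : ℍ → ℂ} (hf : MDiff f)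
    (hS : ∀ z : ℍ, f (ModularGroup.S • z) = f z)
    (hT : ∀ z : ℍ, f ((1 : ℝ) +ᵥ z) = f z) (n : ℕ)
    (hbdd : IsBoundedAtImInfty (fun z => discriminant z ^ n * f z)) :
    ∃ P : Polynomial ℂ, P.natDegree ≤ n ∧
      ∀ z, f z = P.eval (E₄ z ^ 3 / discriminant z) :=
  exists_polynomial_j_of_S_T hf hS (fun z => by rw [UpperHalfPlane.modular_T_smul, hT]) n hbdd

/-- `|j| → ∞` at `i∞`. -/
theorem tendsto_norm_j_atTop :
    Tendsto (fun z : ℍ => ‖E₄ z ^ 3 / discriminant z‖) atImInfty atTop := by
  have h1 : Tendsto (fun z : ℍ => ‖E₄ z ^ 3‖) atImInfty (𝓝 1) := by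
    have := (tendsto_E4_one.pow 3).norm
    simpa using this
  have h2 : Tendsto (fun z : ℍ => ‖discriminant z‖) atImInfty (𝓝[>] 0) := by
    refine tendsto_nhdsWithin_iff.mpr ⟨?_, Eventually.of_forall fun z => ?_⟩
    · have := (discriminant_isZeroAtImInfty : Tendsto discriminant atImInfty (𝓝 0)).norm
      simpa using this
    · exact norm_pos_iff.mpr (discriminant_ne_zero z)
  have h3 : Tendsto (fun z : ℍ => ‖discriminant z‖⁻¹) atImInfty atTop :=
    tendsto_inv_nhdsGT_zero.comp h2
  have h4 := h1.pos_mul_atTop one_pos h3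
  refine h4.congr fun z => ?_
  rw [norm_div, div_eq_mul_inv]

/-- **Uniqueness** in the polynomial-in-`j` lemma: a polynomial vanishing at all values of
`j = E₄ ^ 3 / Δ` is zero. -/
theorem polynomial_j_eq_zero (P : Polynomial ℂ)
    (h : ∀ z : ℍ, P.eval (E₄ z ^ 3 / discriminant z) = 0) : P = 0 := by
  by_contra hP
  -- the finitely many roots are bounded
  obtain ⟨M, hM⟩ : ∃ M : ℝ, ∀ r ∈ P.roots.toFinset, ‖r‖ ≤ M := by
    refine ⟨Finset.sup' (insert 0 P.roots.toFinset) (Finset.insert_nonempty _ _)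
      fun r => ‖r‖, ?_⟩
    intro r hr
    exact Finset.le_sup' (fun r => ‖r‖) (Finset.mem_insert_of_mem hr)
  obtain ⟨z, hz⟩ := (tendsto_norm_j_atTop.eventually (eventually_gt_atTop M)).exists
  have hroot : E₄ z ^ 3 / discriminant z ∈ P.roots.toFinset := by
    rw [Multiset.mem_toFinset, Polynomial.mem_roots hP]
    exact h z
  exact absurd (hM _ hroot) (not_le.mpr hz)

/-- Two polynomials agreeing at all values of `j` are equal. -/
theorem polynomial_j_ext {P Q : Polynomial ℂ}
    (h : ∀ z : ℍ, P.eval (E₄ z ^ 3 / discriminant z) = Q.eval (E₄ z ^ 3 / discriminant z)) :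
    P = Q :=
  sub_eq_zero.mp (polynomial_j_eq_zero (P - Q) fun z => by simp [h z])

end Fermat.Agent.H96
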