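import Mathlib

/-!
# Weighted Eisenstein sums and Eisenstein series with character (helper96, P-ES / ES-A)

For a bounded weight `w : (Fin 2 → ℤ) → ℂ` and `k ≥ 3` we study
`eisW w k z = ∑' v, w v * (v 0 * z + v 1) ^ (-k)`:
summability, the slash action of `SL(2, ℤ)`, holomorphy, boundedness at `i∞` (hence at all
cusps), and the limit at `i∞`.  For a subgroup `Γ` of `SL(2, ℤ)` and a unitary character `χ` of
`Γ` which is trivial on the elements of `Γ` with bottom row `(0, 1)` this gives the Eisenstein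
series with character `eisChar Γ χ k`, satisfying
`eisChar Γ χ k ∣[k] γ = χ γ • eisChar Γ χ k` for `γ ∈ Γ`.
-/

set_option autoImplicit false

noncomputable section

open UpperHalfPlane ModularForm EisensteinSeries Filter Topology
open scoped MatrixGroups Manifold Matrix

namespace Fermat.Agent.H96

/-- The weighted Eisenstein sum. -/
def eisW (w : (Fin 2 → ℤ) → ℂ) (k : ℤ) (z : ℍ) : ℂ :=
  ∑' v : Fin 2 → ℤ, w v * eisSummand k v z

/-- Right multiplication by `A ∈ SL(2, ℤ)` as a permutation of `ℤ²`. -/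
def vecMulEquiv (A : SL(2, ℤ)) : (Fin 2 → ℤ) ≃ (Fin 2 → ℤ) where
  toFun v := v ᵥ* (A : Matrix (Fin 2) (Fin 2) ℤ)
  invFun v := v ᵥ* ((A⁻¹ : SL(2, ℤ)) : Matrix (Fin 2) (Fin 2) ℤ)
  left_inv v := by
    simp only [Matrix.vecMul_vecMul, ← Matrix.SpecialLinearGroup.coe_mul, mul_inv_cancel,
      Matrix.SpecialLinearGroup.coe_one, Matrix.vecMul_one]
  right_inv v := by
    simp only [Matrix.vecMul_vecMul, ← Matrix.SpecialLinearGroup.coe_mul, inv_mul_cancel,
      Matrix.SpecialLinearGroup.coe_one, Matrix.vecMul_one]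

@[simp] lemma vecMulEquiv_apply (A : SL(2, ℤ)) (v : Fin 2 → ℤ) :
    vecMulEquiv A v = v ᵥ* (A : Matrix (Fin 2) (Fin 2) ℤ) := rfl

@[simp] lemma vecMulEquiv_symm_apply (A : SL(2, ℤ)) (v : Fin 2 → ℤ) :
    (vecMulEquiv A).symm v = v ᵥ* ((A⁻¹ : SL(2, ℤ)) : Matrix (Fin 2) (Fin 2) ℤ) := rfl

lemma summable_norm_eisW_term {w : (Fin 2 → ℤ) → ℂ} (hw : ∀ v, ‖w v‖ ≤ 1) {k : ℤ} (hk : 3 ≤ k)
    (z : ℍ) : Summable fun v : Fin 2 → ℤ => ‖w v * eisSummand k v z‖ := by
  refine Summable.of_nonneg_of_le (fun _ => norm_nonneg _) (fun v => ?_)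
    (summable_norm_eisSummand hk z)
  rw [norm_mul]
  exact mul_le_of_le_one_left (norm_nonneg _) (hw v)

lemma summable_eisW_term {w : (Fin 2 → ℤ) → ℂ} (hw : ∀ v, ‖w v‖ ≤ 1) {k : ℤ} (hk : 3 ≤ k)
    (z : ℍ) : Summable fun v : Fin 2 → ℤ => w v * eisSummand k v z :=
  (summable_norm_eisW_term hw hk z).of_norm

/-- The absolute majorant of all weighted Eisenstein sums. -/
def eisAbs (k : ℤ) (z : ℍ) : ℝ := ∑' v : Fin 2 → ℤ, ‖eisSummand k v z‖

lemma norm_eisW_le {w : (Fin 2 → ℤ) → ℂ} (hw : ∀ v, ‖w v‖ ≤ 1) {k : ℤ} (hk : 3 ≤ k)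
    (z : ℍ) : ‖eisW w k z‖ ≤ eisAbs k z := by
  refine (norm_tsum_le_tsum_norm (summable_norm_eisW_term hw hk z)).trans ?_
  refine (summable_norm_eisW_term hw hk z).tsum_le_tsum (fun v => ?_)
    (summable_norm_eisSummand hk z)
  rw [norm_mul]
  exact mul_le_of_le_one_left (norm_nonneg _) (hw v)

/-- The slash action of `SL(2, ℤ)` on weighted Eisenstein sums permutes the weights. -/
lemma eisW_slash (w : (Fin 2 → ℤ) → ℂ) (k : ℤ) (A : SL(2, ℤ)) :
    eisW w k ∣[k] A = eisW (fun v => w (v ᵥ* ((A⁻¹ : SL(2, ℤ)) : Matrix (Fin 2) (Fin 2) ℤ))) k := by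
  ext1 z
  simp_rw [SL_slash_apply, zpow_neg,
    mul_inv_eq_iff_eq_mul₀ (zpow_ne_zero _ <| denom_ne_zero _ z), eisW, eisSummand_SL2_apply]
  rw [← tsum_mul_right]
  rw [← (vecMulEquiv A).tsum_eq (fun u : Fin 2 → ℤ =>
    w (u ᵥ* ((A⁻¹ : SL(2, ℤ)) : Matrix (Fin 2) (Fin 2) ℤ)) * eisSummand k u z * denom A z ^ k)]
  refine tsum_congr fun v => ?_
  simp only [vecMulEquiv_apply, Matrix.vecMul_vecMul, ← Matrix.SpecialLinearGroup.coe_mul, mul_inv_cancel,
    Matrix.SpecialLinearGroup.coe_one, Matrix.vecMul_one]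
  ring


/-! ### Holomorphy -/

theorem eisW_tendstoLocallyUniformly {w : (Fin 2 → ℤ) → ℂ} (hw : ∀ v, ‖w v‖ ≤ 1) {k : ℤ}
    (hk : 3 ≤ k) :
    TendstoLocallyUniformly (fun (s : Finset (Fin 2 → ℤ)) ↦ (∑ x ∈ s, w x * eisSummand k x ·))
      (eisW w k ·) Filter.atTop := by
  have hk' : (2 : ℝ) < k := by norm_cast
  have p_sum : Summable fun x : Fin 2 → ℤ ↦ ‖x‖ ^ (-k) :=
    mod_cast (summable_one_div_norm_rpow hk')
  simp only [tendstoLocallyUniformly_iff_forall_isCompact, eisW]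
  intro K hK
  obtain ⟨A, B, hB, HABK⟩ := subset_verticalStrip_of_isCompact hK
  refine (tendstoUniformlyOn_tsum (hu := p_sum.mul_left <| r ⟨⟨A, B⟩, hB⟩ ^ (-k : ℝ))
    (fun p z hz ↦ ?_)).mono HABK
  rw [norm_mul]
  refine (mul_le_of_le_one_left (norm_nonneg _) (hw p)).trans ?_
  simpa only [eisSummand, one_div, ← zpow_neg, norm_zpow, ← Real.rpow_intCast,
    Int.cast_neg] using summand_bound_of_mem_verticalStrip (by positivity) p hB hz

lemma eisW_tendstoLocallyUniformlyOn {w : (Fin 2 → ℤ) → ℂ} (hw : ∀ v, ‖w v‖ ≤ 1) {k : ℤ}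
    (hk : 3 ≤ k) :
    TendstoLocallyUniformlyOn (fun (s : Finset (Fin 2 → ℤ)) ↦
      ↑ₕ(fun (z : ℍ) ↦ ∑ x ∈ s, w x * eisSummand k x z)) (↑ₕ(eisW w k))
          Filter.atTop {z : ℂ | 0 < z.im} := by
  rw [← upperHalfPlaneSet, ← range_coe, ← Set.image_univ]
  apply TendstoLocallyUniformlyOn.comp (s := ⊤) _ _ _ (OpenPartialHomeomorph.continuousOn_symm _)
  · simp only [Set.top_eq_univ, tendstoLocallyUniformlyOn_univ]
    exact eisW_tendstoLocallyUniformly hw hk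
  · simp only [IsOpenEmbedding.toOpenPartialHomeomorph_target, Set.top_eq_univ,
      Set.mapsTo_range_iff, Set.mem_univ, forall_const]

/-- Weighted Eisenstein sums with bounded weights are holomorphic on `ℍ`. -/
theorem eisW_mdifferentiable {w : (Fin 2 → ℤ) → ℂ} (hw : ∀ v, ‖w v‖ ≤ 1) {k : ℤ}
    (hk : 3 ≤ k) : MDiff (eisW w k) := by
  intro τ
  suffices DifferentiableAt ℂ (↑ₕ(eisW w k)) τ.1 by
    convert!
      MDifferentiableAt.comp τ (DifferentiableAt.mdifferentiableAt this) τ.mdifferentiable_coe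
    exact funext fun z ↦ (comp_ofComplex (eisW w k) z).symm
  refine DifferentiableOn.differentiableAt ?_ (isOpen_upperHalfPlaneSet.mem_nhds τ.2)
  refine (eisW_tendstoLocallyUniformlyOn hw hk).differentiableOn
    (Eventually.of_forall fun s ↦ ?_) isOpen_upperHalfPlaneSet
  have : (↑ₕ(fun (z : ℍ) ↦ ∑ x ∈ s, w x * eisSummand k x z)) =
      fun z : ℂ => ∑ x ∈ s, w x * (↑ₕ(eisSummand k x)) z := by
    funext z
    simp
  rw [this]
  exact DifferentiableOn.fun_sum fun x _ ↦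
    (eisSummand_extension_differentiableOn k x).const_mul (w x)


/-! ### Boundedness at `i∞` -/

/-- The shear `v ↦ (v₀, n v₀ + v₁)` of `ℤ²`. -/
def shearEquiv (n : ℤ) : (Fin 2 → ℤ) ≃ (Fin 2 → ℤ) where
  toFun v := ![v 0, v 0 * n + v 1]
  invFun v := ![v 0, v 0 * (-n) + v 1]
  left_inv v := by
    ext i
    fin_cases i <;> simp
  right_inv v := by
    ext i
    fin_cases i <;> simp

@[simp] lemma shearEquiv_apply_zero (n : ℤ) (v : Fin 2 → ℤ) : shearEquiv n v 0 = v 0 := rfl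

@[simp] lemma shearEquiv_apply_one (n : ℤ) (v : Fin 2 → ℤ) :
    shearEquiv n v 1 = v 0 * n + v 1 := rfl

lemma eisSummand_T_zpow_smul (k : ℤ) (v : Fin 2 → ℤ) (n : ℤ) (z : ℍ) :
    eisSummand k v (ModularGroup.T ^ n • z) = eisSummand k (shearEquiv n v) z := by
  simp only [eisSummand, ModularGroup.coe_T_zpow_smul_eq, shearEquiv_apply_zero,
    shearEquiv_apply_one]
  congr 1
  push_cast
  ring

lemma eisAbs_T_zpow_smul (k : ℤ) (n : ℤ) (z : ℍ) :
    eisAbs k (ModularGroup.T ^ n • z) = eisAbs k z := by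
  unfold eisAbs
  simp_rw [eisSummand_T_zpow_smul]
  exact (shearEquiv n).tsum_eq (fun v => ‖eisSummand k v z‖)

/-- The constant bounding all weighted Eisenstein sums on `{2 ≤ im z}`. -/
def eisBound (k : ℤ) : ℝ :=
  ∑' x : Fin 2 → ℤ, r ⟨⟨1, 2⟩, two_pos⟩ ^ (-k) * ‖x‖ ^ (-k)

lemma norm_eisSummand_le_of_mem_verticalStrip {k : ℤ} (hk : 3 ≤ k) (v : Fin 2 → ℤ) {z : ℍ}
    (hz : z ∈ verticalStrip 1 2) :
    ‖eisSummand k v z‖ ≤ r ⟨⟨1, 2⟩, two_pos⟩ ^ (-k) * ‖v‖ ^ (-k) := by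
  have hk' : (0 : ℝ) ≤ k := by
    have : (0 : ℤ) ≤ k := by omega
    exact_mod_cast this
  simp_rw [eisSummand, norm_zpow]
  exact_mod_cast summand_bound_of_mem_verticalStrip hk' v two_pos hz

lemma summable_eisBound_term {k : ℤ} (hk : 3 ≤ k) :
    Summable fun x : Fin 2 → ℤ => r ⟨⟨1, 2⟩, two_pos⟩ ^ (-k) * ‖x‖ ^ (-k) := by
  have hk' : (2 : ℝ) < k := by norm_cast
  exact_mod_cast (summable_one_div_norm_rpow hk').mul_left <| r ⟨⟨1, 2⟩, two_pos⟩ ^ (-k)

lemma exists_T_zpow_smul_mem_verticalStrip (z : ℍ) :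
    ∃ n : ℤ, ModularGroup.T ^ n • z ∈ verticalStrip 1 z.im := by
  obtain ⟨n, hn⟩ := ModularGroup_T_zpow_mem_verticalStrip z (N := 1) one_pos
  exact ⟨((1 : ℕ) : ℤ) * n, by simpa using hn⟩

lemma eisAbs_le_eisBound {k : ℤ} (hk : 3 ≤ k) {z : ℍ} (hz : 2 ≤ z.im) :
    eisAbs k z ≤ eisBound k := by
  obtain ⟨n, hn⟩ := exists_T_zpow_smul_mem_verticalStrip z
  rw [← eisAbs_T_zpow_smul k n z]
  exact (summable_norm_eisSummand hk _).tsum_le_tsum
    (fun v => norm_eisSummand_le_of_mem_verticalStrip hk v (verticalStrip_anti_right 1 hz hn))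
    (summable_eisBound_term hk)

/-- Weighted Eisenstein sums with bounded weights are bounded at `i∞`. -/
theorem isBoundedAtImInfty_eisW {w : (Fin 2 → ℤ) → ℂ} (hw : ∀ v, ‖w v‖ ≤ 1) {k : ℤ}
    (hk : 3 ≤ k) : IsBoundedAtImInfty (eisW w k) := by
  rw [UpperHalfPlane.isBoundedAtImInfty_iff]
  exact ⟨eisBound k, 2, fun z hz => (norm_eisW_le hw hk z).trans (eisAbs_le_eisBound hk hz)⟩

/-- Weighted Eisenstein sums with bounded weights are bounded at every cusp: all their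
`SL(2, ℤ)`-translates are bounded at `i∞`. -/
theorem isBoundedAtImInfty_eisW_slash {w : (Fin 2 → ℤ) → ℂ} (hw : ∀ v, ‖w v‖ ≤ 1) {k : ℤ}
    (hk : 3 ≤ k) (A : SL(2, ℤ)) : IsBoundedAtImInfty (eisW w k ∣[k] A) := by
  rw [eisW_slash]
  exact isBoundedAtImInfty_eisW (fun v => hw _) hk

/-! ### The limit at `i∞` -/

/-- The tail of the absolute Eisenstein sum: vectors with non-zero first entry. -/
def eisTail (k : ℤ) (z : ℍ) : ℝ :=
  ∑' v : Fin 2 → ℤ, if v 0 = 0 then 0 else ‖eisSummand k v z‖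

/-- The constant term of a weighted Eisenstein sum. -/
def eisWConst (w : (Fin 2 → ℤ) → ℂ) (k : ℤ) : ℂ :=
  ∑' v : Fin 2 → ℤ, if v 0 = 0 then w v * ((v 1 : ℂ)) ^ (-k) else 0

lemma eisTail_T_zpow_smul (k : ℤ) (n : ℤ) (z : ℍ) :
    eisTail k (ModularGroup.T ^ n • z) = eisTail k z := by
  unfold eisTail
  simp_rw [eisSummand_T_zpow_smul]
  exact (shearEquiv n).tsum_eq (fun v => if v 0 = 0 then 0 else ‖eisSummand k v z‖)

lemma summable_eisTail_term {k : ℤ} (hk : 3 ≤ k) (z : ℍ) :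
    Summable fun v : Fin 2 → ℤ => if v 0 = 0 then 0 else ‖eisSummand k v z‖ := by
  refine Summable.of_nonneg_of_le (fun v => ?_) (fun v => ?_) (summable_norm_eisSummand hk z)
  · split_ifs <;> simp
  · split_ifs <;> simp

lemma summable_eisWConst_term {w : (Fin 2 → ℤ) → ℂ} (hw : ∀ v, ‖w v‖ ≤ 1) {k : ℤ}
    (hk : 3 ≤ k) :
    Summable fun v : Fin 2 → ℤ => if v 0 = 0 then w v * ((v 1 : ℂ)) ^ (-k) else 0 := by
  refine Summable.of_norm_bounded (summable_norm_eisW_term hw hk UpperHalfPlane.I) (fun v => ?_)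
  split_ifs with h
  · simp [eisSummand, h]
  · simp only [norm_zero]
    positivity

lemma norm_eisW_sub_eisWConst_le {w : (Fin 2 → ℤ) → ℂ} (hw : ∀ v, ‖w v‖ ≤ 1) {k : ℤ}
    (hk : 3 ≤ k) (z : ℍ) : ‖eisW w k z - eisWConst w k‖ ≤ eisTail k z := by
  unfold eisW eisWConst eisTail
  rw [← (summable_eisW_term hw hk z).tsum_sub (summable_eisWConst_term hw hk)]
  have hle : ∀ v : Fin 2 → ℤ,
      ‖w v * eisSummand k v z - (if v 0 = 0 then w v * ((v 1 : ℂ)) ^ (-k) else 0)‖ ≤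
        if v 0 = 0 then 0 else ‖eisSummand k v z‖ := by
    intro v
    split_ifs with h
    · simp [eisSummand, h]
    · rw [sub_zero, norm_mul]
      exact mul_le_of_le_one_left (norm_nonneg _) (hw v)
  have hsum : Summable fun v : Fin 2 → ℤ =>
      ‖w v * eisSummand k v z - (if v 0 = 0 then w v * ((v 1 : ℂ)) ^ (-k) else 0)‖ :=
    Summable.of_nonneg_of_le (fun _ => norm_nonneg _) hle (summable_eisTail_term hk z)
  exact (norm_tsum_le_tsum_norm hsum).trans (hsum.tsum_le_tsum hle (summable_eisTail_term hk z))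


lemma norm_eisSummand_le_im_zpow {k : ℤ} (hk : 0 ≤ k) {v : Fin 2 → ℤ} (hv : v 0 ≠ 0) (z : ℍ) :
    ‖eisSummand k v z‖ ≤ (z.im ^ k)⁻¹ := by
  have him : z.im ≤ ‖(v 0 : ℂ) * (z : ℂ) + v 1‖ := by
    have h1 : |((v 0 : ℂ) * (z : ℂ) + v 1).im| ≤ ‖(v 0 : ℂ) * (z : ℂ) + v 1‖ :=
      Complex.abs_im_le_norm _
    have h2 : ((v 0 : ℂ) * (z : ℂ) + v 1).im = (v 0 : ℝ) * z.im := by simp
    rw [h2, abs_mul, abs_of_pos z.im_pos] at h1
    have h3 : (1 : ℝ) ≤ |(v 0 : ℝ)| := by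
      have : (1 : ℤ) ≤ |v 0| := Int.one_le_abs hv
      exact_mod_cast this
    nlinarith [z.im_pos]
  lift k to ℕ using hk
  simp only [eisSummand, zpow_neg, zpow_natCast, norm_inv, norm_pow]
  rw [inv_le_inv₀ (pow_pos (lt_of_lt_of_le z.im_pos him) _) (pow_pos z.im_pos _)]
  exact pow_le_pow_left₀ z.im_pos.le him _

lemma tendsto_eisTail_strip {k : ℤ} (hk : 3 ≤ k) :
    Tendsto (eisTail k) (atImInfty ⊓ 𝓟 (verticalStrip 1 2)) (𝓝 0) := by
  have h0 : (0 : ℝ) = ∑' _ : Fin 2 → ℤ, (0 : ℝ) := by simp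
  rw [h0]
  unfold eisTail
  refine tendsto_tsum_of_dominated_convergence (summable_eisBound_term hk) (fun v => ?_) ?_
  · by_cases hv : v 0 = 0
    · simp only [hv, if_true]
      exact tendsto_const_nhds
    · simp only [hv, if_false]
      have hk0 : (0 : ℤ) ≤ k := by omega
      have hlim : Tendsto (fun z : ℍ => (z.im ^ k)⁻¹) atImInfty (𝓝 0) := by
        have h1 : Tendsto (fun z : ℍ => z.im) atImInfty atTop := tendsto_comap
        have h2 : Tendsto (fun x : ℝ => x ^ k) atTop atTop :=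
          tendsto_zpow_atTop_atTop (by omega)
        exact tendsto_inv_atTop_zero.comp (h2.comp h1)
      refine squeeze_zero (fun z => norm_nonneg _)
        (fun z => norm_eisSummand_le_im_zpow hk0 hv z) (hlim.mono_left inf_le_left)
  · refine Filter.eventually_of_mem (mem_inf_of_right (mem_principal_self _)) (fun z hz v => ?_)
    split_ifs with hv
    · simp only [norm_zero]
      have := norm_eisSummand_le_of_mem_verticalStrip hk v hz
      exact (norm_nonneg _).trans this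
    · rw [norm_norm]
      exact norm_eisSummand_le_of_mem_verticalStrip hk v hz

lemma eisTail_nonneg (k : ℤ) (z : ℍ) : 0 ≤ eisTail k z :=
  tsum_nonneg fun v => by split_ifs <;> simp

/-- A weighted Eisenstein sum with bounded weights tends to its constant term at `i∞`. -/
theorem tendsto_eisW_atImInfty {w : (Fin 2 → ℤ) → ℂ} (hw : ∀ v, ‖w v‖ ≤ 1) {k : ℤ}
    (hk : 3 ≤ k) : Tendsto (eisW w k) atImInfty (𝓝 (eisWConst w k)) := by
  rw [Metric.tendsto_nhds]
  intro ε hε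
  have h := (Metric.tendsto_nhds.mp (tendsto_eisTail_strip hk)) ε hε
  rw [Filter.eventually_inf_principal, Filter.Eventually, atImInfty_mem] at h
  obtain ⟨A, hA⟩ := h
  rw [Filter.Eventually, atImInfty_mem]
  refine ⟨max A 2, fun z hz => ?_⟩
  obtain ⟨n, hn⟩ := exists_T_zpow_smul_mem_verticalStrip z
  have hz' : ModularGroup.T ^ n • z ∈ verticalStrip 1 2 :=
    verticalStrip_anti_right 1 ((le_max_right A 2).trans hz) hn
  have h1 := hA (ModularGroup.T ^ n • z)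
    (by rw [ModularGroup.im_T_zpow_smul]; exact (le_max_left A 2).trans hz) hz'
  simp only [Real.dist_eq, sub_zero] at h1
  rw [eisTail_T_zpow_smul, abs_of_nonneg (eisTail_nonneg k z)] at h1
  rw [Set.mem_ofPred_eq, dist_eq_norm]
  exact (norm_eisW_sub_eisWConst_le hw hk z).trans_lt h1


/-! ### Eisenstein series with character -/

/-- The bottom row of a matrix in `SL(2, ℤ)`. -/
def botRow (g : SL(2, ℤ)) : Fin 2 → ℤ := (g : Matrix (Fin 2) (Fin 2) ℤ) 1

lemma botRow_mul (g h : SL(2, ℤ)) :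
    botRow (g * h) = botRow g ᵥ* (h : Matrix (Fin 2) (Fin 2) ℤ) := by
  ext i
  simp [botRow, Matrix.mul_apply, Matrix.vecMul, dotProduct]

lemma botRow_one : botRow 1 = ![0, 1] := by
  ext i
  fin_cases i <;> simp [botRow]

lemma botRow_neg_one : botRow (-1) = ![0, -1] := by
  ext i
  fin_cases i <;> simp [botRow]

lemma botRow_isCoprime (g : SL(2, ℤ)) : IsCoprime (botRow g 0) (botRow g 1) := by
  have h := g.det_coe
  rw [Matrix.det_fin_two] at h
  exact ⟨-(g : Matrix (Fin 2) (Fin 2) ℤ) 0 1, (g : Matrix (Fin 2) (Fin 2) ℤ) 0 0, by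
    simp only [botRow]; linarith⟩

lemma botRow_mul_inv_of_eq {g h : SL(2, ℤ)} (hgh : botRow h = botRow g) :
    botRow (h * g⁻¹) = ![0, 1] := by
  rw [botRow_mul, hgh, ← botRow_mul, mul_inv_cancel, botRow_one]

section Character

variable (Γ : Subgroup SL(2, ℤ)) (χ : Γ →* ℂˣ)

/-- The character is trivial on the elements of `Γ` with bottom row `(0, 1)`, i.e. on the
translations `T ^ n` contained in `Γ`. -/
def IsTrivialAtInfty : Prop := ∀ γ : Γ, botRow (γ : SL(2, ℤ)) = ![0, 1] → χ γ = 1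

/-- The character is unitary. -/
def IsUnitaryChar : Prop := ∀ γ : Γ, ‖(χ γ : ℂ)‖ = 1

variable {Γ χ}

lemma isUnitaryChar_of_pow_eq_one {m : ℕ} (hm : m ≠ 0) (h : χ ^ m = 1) : IsUnitaryChar Γ χ := by
  intro γ
  have h1 : (χ γ : ℂ) ^ m = 1 := by
    have := congrArg (fun ψ : Γ →* ℂˣ => ((ψ γ : ℂˣ) : ℂ)) h
    simpa using this
  exact Complex.norm_eq_one_of_pow_eq_one h1 hm

lemma IsTrivialAtInfty.eq_of_botRow_eq (hT : IsTrivialAtInfty Γ χ) {γ γ' : Γ}
    (h : botRow (γ' : SL(2, ℤ)) = botRow (γ : SL(2, ℤ))) : χ γ' = χ γ := by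
  have h1 : χ (γ' * γ⁻¹) = 1 := hT _ (by simpa using botRow_mul_inv_of_eq h)
  rw [map_mul, map_inv, mul_inv_eq_one] at h1
  exact h1

variable (Γ χ)

open Classical in
/-- The weight function on `ℤ²` attached to a character: `conj (χ γ)` on the bottom row of
`γ ∈ Γ`, zero on vectors which are not bottom rows of elements of `Γ`. -/
def charWeight (v : Fin 2 → ℤ) : ℂ :=
  if h : ∃ γ : Γ, botRow (γ : SL(2, ℤ)) = v then (starRingEnd ℂ) (χ h.choose : ℂ) else 0

variable {Γ χ}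

lemma charWeight_botRow (hT : IsTrivialAtInfty Γ χ) (γ : Γ) :
    charWeight Γ χ (botRow (γ : SL(2, ℤ))) = (starRingEnd ℂ) (χ γ : ℂ) := by
  have h : ∃ γ' : Γ, botRow (γ' : SL(2, ℤ)) = botRow (γ : SL(2, ℤ)) := ⟨γ, rfl⟩
  rw [charWeight, dif_pos h, hT.eq_of_botRow_eq h.choose_spec]

lemma charWeight_of_not_exists {v : Fin 2 → ℤ} (h : ¬ ∃ γ : Γ, botRow (γ : SL(2, ℤ)) = v) :
    charWeight Γ χ v = 0 := by
  rw [charWeight, dif_neg h]

lemma norm_charWeight_le (hU : IsUnitaryChar Γ χ) (v : Fin 2 → ℤ) : ‖charWeight Γ χ v‖ ≤ 1 := by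
  unfold charWeight
  split_ifs with h
  · rw [RCLike.norm_conj, hU]
  · simp

lemma isCoprime_of_charWeight_ne_zero {v : Fin 2 → ℤ} (h : charWeight Γ χ v ≠ 0) :
    IsCoprime (v 0) (v 1) := by
  by_cases hv : ∃ γ : Γ, botRow (γ : SL(2, ℤ)) = v
  · obtain ⟨γ, rfl⟩ := hv
    exact botRow_isCoprime _
  · exact absurd (charWeight_of_not_exists hv) h

/-- The transformation rule of the weights under right multiplication by `A⁻¹`, `A ∈ Γ`. -/
lemma charWeight_vecMul_inv (hT : IsTrivialAtInfty Γ χ) (hU : IsUnitaryChar Γ χ) (A : Γ)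
    (v : Fin 2 → ℤ) :
    charWeight Γ χ (v ᵥ* (((A : SL(2, ℤ))⁻¹ : SL(2, ℤ)) : Matrix (Fin 2) (Fin 2) ℤ)) =
      (χ A : ℂ) * charWeight Γ χ v := by
  by_cases hv : ∃ γ : Γ, botRow (γ : SL(2, ℤ)) = v
  · obtain ⟨γ, rfl⟩ := hv
    have h1 : botRow (γ : SL(2, ℤ)) ᵥ* (((A : SL(2, ℤ))⁻¹ : SL(2, ℤ)) : Matrix (Fin 2) (Fin 2) ℤ)
        = botRow ((γ * A⁻¹ : Γ) : SL(2, ℤ)) := by
      rw [Subgroup.coe_mul, Subgroup.coe_inv, botRow_mul]
    rw [h1, charWeight_botRow hT, charWeight_botRow hT, map_mul, map_inv, Units.val_mul, map_mul]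
    have h2 : (χ A : ℂ) * (starRingEnd ℂ) (χ A : ℂ) = 1 := by
      rw [Complex.mul_conj, Complex.normSq_eq_norm_sq, hU A]
      simp
    have h3 : (starRingEnd ℂ) (((χ A)⁻¹ : ℂˣ) : ℂ) = (χ A : ℂ) := by
      rw [Units.val_inv_eq_inv_val, map_inv₀]
      exact (eq_inv_of_mul_eq_one_left h2).symm
    rw [h3]
    ring
  · have hv' : ¬ ∃ γ : Γ, botRow (γ : SL(2, ℤ)) =
        v ᵥ* (((A : SL(2, ℤ))⁻¹ : SL(2, ℤ)) : Matrix (Fin 2) (Fin 2) ℤ) := by
      rintro ⟨γ, hγ⟩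
      refine hv ⟨γ * A, ?_⟩
      rw [Subgroup.coe_mul, botRow_mul, hγ, Matrix.vecMul_vecMul,
        ← Matrix.SpecialLinearGroup.coe_mul, inv_mul_cancel, Matrix.SpecialLinearGroup.coe_one,
        Matrix.vecMul_one]
    rw [charWeight_of_not_exists hv, charWeight_of_not_exists hv', mul_zero]


variable (Γ χ)

/-- The Eisenstein series of weight `k` with character `χ` on `Γ` (sum over all bottom rows of
elements of `Γ`, so each coset of `±Γ_∞` is counted twice if `-1 ∈ Γ`). -/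
def eisChar (k : ℤ) : ℍ → ℂ := eisW (charWeight Γ χ) k

variable {Γ χ}

theorem eisChar_mdifferentiable (hU : IsUnitaryChar Γ χ) {k : ℤ} (hk : 3 ≤ k) :
    MDiff (eisChar Γ χ k) :=
  eisW_mdifferentiable (norm_charWeight_le hU) hk

/-- The Eisenstein series with character transforms by `χ` under `Γ`. -/
theorem eisChar_slash (hT : IsTrivialAtInfty Γ χ) (hU : IsUnitaryChar Γ χ) (k : ℤ) (A : Γ) :
    eisChar Γ χ k ∣[k] (A : SL(2, ℤ)) = (χ A : ℂ) • eisChar Γ χ k := by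
  rw [eisChar, eisW_slash]
  ext z
  simp only [eisW, Pi.smul_apply, smul_eq_mul, ← tsum_mul_left]
  refine tsum_congr fun v => ?_
  rw [charWeight_vecMul_inv hT hU, mul_assoc]

/-- Pointwise form of the transformation rule. -/
theorem eisChar_smul (hT : IsTrivialAtInfty Γ χ) (hU : IsUnitaryChar Γ χ) (k : ℤ) (A : Γ)
    (z : ℍ) :
    eisChar Γ χ k ((A : SL(2, ℤ)) • z) =
      (χ A : ℂ) * denom (A : SL(2, ℤ)) z ^ k * eisChar Γ χ k z := by
  have h := congrFun (eisChar_slash hT hU k A) z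
  rw [SL_slash_apply, Pi.smul_apply, smul_eq_mul] at h
  have hd : denom (A : SL(2, ℤ)) z ^ k ≠ 0 := zpow_ne_zero _ (denom_ne_zero _ z)
  rw [zpow_neg, mul_inv_eq_iff_eq_mul₀ hd] at h
  rw [h]
  ring

/-- The Eisenstein series with character is bounded at all cusps. -/
theorem isBoundedAtImInfty_eisChar_slash (hU : IsUnitaryChar Γ χ) {k : ℤ} (hk : 3 ≤ k)
    (A : SL(2, ℤ)) : IsBoundedAtImInfty (eisChar Γ χ k ∣[k] A) :=
  isBoundedAtImInfty_eisW_slash (norm_charWeight_le hU) hk A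

lemma eisWConst_charWeight (k : ℤ) :
    eisWConst (charWeight Γ χ) k =
      charWeight Γ χ ![0, 1] + charWeight Γ χ ![0, -1] * (-1 : ℂ) ^ (-k) := by
  unfold eisWConst
  have hne : (![0, 1] : Fin 2 → ℤ) ≠ ![0, -1] := by
    intro h
    have := congrFun h 1
    simp at this
  rw [tsum_eq_sum (s := {![0, 1], ![0, -1]})]
  · rw [Finset.sum_pair hne]
    simp
  · intro v hv
    simp only [Finset.mem_insert, Finset.mem_singleton, not_or] at hv
    split_ifs with h0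
    · by_cases hw : charWeight Γ χ v = 0
      · rw [hw, zero_mul]
      · exfalso
        have hc := isCoprime_of_charWeight_ne_zero hw
        rw [h0, isCoprime_zero_left, Int.isUnit_iff] at hc
        rcases hc with h1 | h1
        · exact hv.1 (by ext i; fin_cases i <;> simp [h0, h1])
        · exact hv.2 (by ext i; fin_cases i <;> simp [h0, h1])
    · rfl

lemma charWeight_zero_one (hT : IsTrivialAtInfty Γ χ) : charWeight Γ χ ![0, 1] = 1 := by
  have := charWeight_botRow hT (1 : Γ)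
  rwa [Subgroup.coe_one, botRow_one, map_one, Units.val_one, map_one] at this

/-- The limit at `i∞` of the Eisenstein series with character. -/
theorem tendsto_eisChar_atImInfty (hU : IsUnitaryChar Γ χ) {k : ℤ} (hk : 3 ≤ k) :
    Tendsto (eisChar Γ χ k) atImInfty
      (𝓝 (charWeight Γ χ ![0, 1] + charWeight Γ χ ![0, -1] * (-1 : ℂ) ^ (-k))) := by
  rw [← eisWConst_charWeight]
  exact tendsto_eisW_atImInfty (norm_charWeight_le hU) hk

/-- If `-1 ∈ Γ`, `χ (-1) = 1` and `k` is even, the Eisenstein series with character tends to `2`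
at `i∞`. -/
theorem tendsto_eisChar_two (hT : IsTrivialAtInfty Γ χ) (hU : IsUnitaryChar Γ χ) {k : ℤ}
    (hk : 3 ≤ k) (hk2 : Even k) (hneg : ∃ γ : Γ, (γ : SL(2, ℤ)) = -1 ∧ χ γ = 1) :
    Tendsto (eisChar Γ χ k) atImInfty (𝓝 2) := by
  have h := tendsto_eisChar_atImInfty (Γ := Γ) (χ := χ) hU hk
  obtain ⟨γ, hγ, hχ⟩ := hneg
  have h1 : charWeight Γ χ ![0, -1] = 1 := by
    have := charWeight_botRow hT γ
    rwa [hγ, botRow_neg_one, hχ, Units.val_one, map_one] at this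
  rw [charWeight_zero_one hT, h1, one_mul, hk2.neg.neg_one_zpow] at h
  norm_num at h
  exact h

/-- The Eisenstein series with character is not identically zero. -/
theorem eisChar_ne_zero (hT : IsTrivialAtInfty Γ χ) (hU : IsUnitaryChar Γ χ) {k : ℤ}
    (hk : 3 ≤ k) (hk2 : Even k) (hneg : ∃ γ : Γ, (γ : SL(2, ℤ)) = -1 ∧ χ γ = 1) :
    ∃ z, eisChar Γ χ k z ≠ 0 := by
  by_contra hcon
  push Not at hcon
  have h := tendsto_eisChar_two hT hU hk hk2 hneg
  have h0 : Tendsto (eisChar Γ χ k) atImInfty (𝓝 0) := by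
    have : eisChar Γ χ k = fun _ => 0 := funext hcon
    rw [this]
    exact tendsto_const_nhds
  exact two_ne_zero (tendsto_nhds_unique h h0)


/-! ### Powers: honest modular forms -/

lemma pow_slash_SL2 (f : ℍ → ℂ) (k : ℤ) (m : ℕ) (A : SL(2, ℤ)) :
    (f ^ m) ∣[k * m] A = (f ∣[k] A) ^ m := by
  induction m with
  | zero =>
    simp only [Nat.cast_zero, mul_zero, pow_zero]
    exact ModularForm.is_invariant_one A
  | succ m ih =>
    rw [pow_succ, pow_succ, ← ih, ← ModularForm.mul_slash_SL2]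
    congr 1
    push_cast
    ring

/-- If `χ ^ m = 1`, the `m`-th power of the Eisenstein series with character is invariant
under `Γ` in weight `k * m`. -/
theorem eisChar_pow_slash (hT : IsTrivialAtInfty Γ χ) (hU : IsUnitaryChar Γ χ) (k : ℤ) {m : ℕ}
    (hm : χ ^ m = 1) (A : Γ) :
    (eisChar Γ χ k ^ m) ∣[k * m] (A : SL(2, ℤ)) = eisChar Γ χ k ^ m := by
  rw [pow_slash_SL2, eisChar_slash hT hU, smul_pow]
  have h1 : (χ A : ℂ) ^ m = 1 := by
    have := congrArg (fun ψ : Γ →* ℂˣ => ((ψ A : ℂˣ) : ℂ)) hm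
    simpa using this
  rw [h1, one_smul]

theorem eisChar_pow_mdifferentiable (hU : IsUnitaryChar Γ χ) {k : ℤ} (hk : 3 ≤ k) (m : ℕ) :
    MDiff (eisChar Γ χ k ^ m) := by
  induction m with
  | zero =>
    simp only [pow_zero]
    exact mdifferentiable_const
  | succ m ih =>
    rw [pow_succ]
    exact ih.mul (eisChar_mdifferentiable hU hk)

theorem isBoundedAtImInfty_eisChar_pow_slash (hU : IsUnitaryChar Γ χ) {k : ℤ} (hk : 3 ≤ k)
    (m : ℕ) (A : SL(2, ℤ)) : IsBoundedAtImInfty ((eisChar Γ χ k ^ m) ∣[k * m] A) := by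
  rw [pow_slash_SL2]
  induction m with
  | zero =>
    simp only [pow_zero]
    exact Filter.const_boundedAtFilter _ (1 : ℂ)
  | succ m ih =>
    rw [pow_succ]
    exact ih.mul (isBoundedAtImInfty_eisChar_slash hU hk A)


open Matrix.SpecialLinearGroup in
/-- The `m`-th power of the Eisenstein series with character `χ` (`χ ^ m = 1`) on a finite index
subgroup `Γ` of `SL(2, ℤ)`, as a Mathlib modular form of weight `k * m` on `Γ`. -/
def eisCharPowMF (Γ : Subgroup SL(2, ℤ)) [Γ.FiniteIndex] (χ : Γ →* ℂˣ)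
    (hT : IsTrivialAtInfty Γ χ) (hU : IsUnitaryChar Γ χ) {k : ℤ} (hk : 3 ≤ k) {m : ℕ}
    (hm : χ ^ m = 1) : ModularForm (Γ : Subgroup (GL (Fin 2) ℝ)) (k * m) where
  toFun := eisChar Γ χ k ^ m
  slash_action_eq' A hA := by
    obtain ⟨A, (hA : A ∈ Γ), rfl⟩ := hA
    have := eisChar_pow_slash hT hU k hm ⟨A, hA⟩
    simpa [Matrix.SpecialLinearGroup.mapGL, ← SL_slash] using this
  holo' := eisChar_pow_mdifferentiable hU hk m
  bdd_at_cusps' {c} hc := by
    rw [Subgroup.IsArithmetic.isCusp_iff_isCusp_SL2Z] at hc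
    rw [OnePoint.isBoundedAt_iff_forall_SL2Z hc]
    exact fun γ _ ↦ isBoundedAtImInfty_eisChar_pow_slash hU hk m γ

@[simp] lemma eisCharPowMF_apply (Γ : Subgroup SL(2, ℤ)) [Γ.FiniteIndex] (χ : Γ →* ℂˣ)
    (hT : IsTrivialAtInfty Γ χ) (hU : IsUnitaryChar Γ χ) {k : ℤ} (hk : 3 ≤ k) {m : ℕ}
    (hm : χ ^ m = 1) (z : ℍ) :
    eisCharPowMF Γ χ hT hU hk hm z = eisChar Γ χ k z ^ m := rfl

end Character

end Fermat.Agent.H96
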