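import Fermat.Agent.H96.EisChar
import Fermat.Agent.H96.PolyInJ
import Fermat.Agent.H94.EsA.Interfaces2

/-!
# A-EIS of P-ES / ES-A: the twisted function `G = E_χ · E₄² / Δ` (helper96)

`twistedFunction N : Fermat.Agent.H94.EsA.TwistedFunctionStatement N`.
-/

set_option autoImplicit false

noncomputable section

open UpperHalfPlane ModularForm EisensteinSeries Filter Topology CongruenceSubgroup
open scoped MatrixGroups Manifold Matrix

namespace Fermat.Agent.H96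

/-- A level-one modular form is slash-invariant under every element of `SL(2,ℤ)`. -/
theorem levelOne_slash_eq_self {m : ℤ} (P : ModularForm 𝒮ℒ m) (g : SL(2, ℤ)) :
    (P : ℍ → ℂ) ∣[m] g = P := by
  have hg : (g : GL (Fin 2) ℝ) ∈ 𝒮ℒ := ⟨g, rfl⟩
  rw [SL_slash]
  exact SlashInvariantFormClass.slash_action_eq P _ hg

theorem levelOne_smul_eq {m : ℤ} (P : ModularForm 𝒮ℒ m) (g : SL(2, ℤ)) (z : ℍ) :
    P (g • z) = denom g z ^ m * P z := by
  have h := congrFun (levelOne_slash_eq_self P g) z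
  rw [SL_slash_apply] at h
  have hd : denom g z ^ m ≠ 0 := zpow_ne_zero _ (denom_ne_zero _ z)
  rw [zpow_neg, mul_inv_eq_iff_eq_mul₀ hd] at h
  rw [h, mul_comm]

theorem discriminant_smul_eq (g : SL(2, ℤ)) (z : ℍ) :
    ModularForm.discriminant (g • z) = denom g z ^ (12 : ℤ) * ModularForm.discriminant z := by
  have hg : (g : GL (Fin 2) ℝ) ∈ 𝒮ℒ := ⟨g, rfl⟩
  have h0 : (CuspForm.discriminant : ℍ → ℂ) ∣[(12 : ℤ)] g = CuspForm.discriminant := by
    rw [SL_slash]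
    exact SlashInvariantFormClass.slash_action_eq CuspForm.discriminant _ hg
  have h := congrFun h0 z
  rw [SL_slash_apply] at h
  have hd : denom g z ^ (12 : ℤ) ≠ 0 := zpow_ne_zero _ (denom_ne_zero _ z)
  rw [zpow_neg, mul_inv_eq_iff_eq_mul₀ hd] at h
  have h1 : ∀ w, (CuspForm.discriminant : ℍ → ℂ) w = ModularForm.discriminant w := fun _ => rfl
  rw [h1, h1] at h
  rw [h, mul_comm]

/-- Pointwise slash formula for functions. -/
theorem apply_smul_eq_slash (f : ℍ → ℂ) (k : ℤ) (g : SL(2, ℤ)) (z : ℍ) :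
    f (g • z) = (f ∣[k] g) z * denom g z ^ k := by
  rw [SL_slash_apply, mul_assoc, ← zpow_add₀ (denom_ne_zero _ z)]
  simp

/-- The twisted function attached to a character of a subgroup of `SL(2, ℤ)`. -/
def twistedFun (Γ : Subgroup SL(2, ℤ)) (χ : Γ →* ℂˣ) : ℍ → ℂ :=
  fun z => eisChar Γ χ 4 z * (E₄ z) ^ 2 / ModularForm.discriminant z

variable {Γ : Subgroup SL(2, ℤ)} {χ : Γ →* ℂˣ}

theorem twistedFun_smul (hT : IsTrivialAtInfty Γ χ) (hU : IsUnitaryChar Γ χ) (A : Γ) (z : ℍ) :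
    twistedFun Γ χ ((A : SL(2, ℤ)) • z) = (χ A : ℂ) * twistedFun Γ χ z := by
  unfold twistedFun
  rw [eisChar_smul hT hU, levelOne_smul_eq, discriminant_smul_eq]
  have hd : denom (A : SL(2, ℤ)) z ≠ 0 := denom_ne_zero _ z
  have hΔ : ModularForm.discriminant z ≠ 0 := ModularForm.discriminant_ne_zero z
  have h4 : denom (A : SL(2, ℤ)) z ^ (4 : ℤ) = denom (A : SL(2, ℤ)) z ^ (4 : ℕ) := by
    norm_cast
  have h12 : denom (A : SL(2, ℤ)) z ^ (12 : ℤ) = denom (A : SL(2, ℤ)) z ^ (12 : ℕ) := by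
    norm_cast
  rw [h4, h12]
  field_simp

theorem twistedFun_smul_SL (γ : SL(2, ℤ)) (z : ℍ) :
    twistedFun Γ χ (γ • z) =
      (eisChar Γ χ 4 ∣[(4 : ℤ)] γ) z * (E₄ z) ^ 2 / ModularForm.discriminant z := by
  unfold twistedFun
  rw [apply_smul_eq_slash (eisChar Γ χ 4) 4 γ z, levelOne_smul_eq, discriminant_smul_eq]
  have hd : denom γ z ≠ 0 := denom_ne_zero _ z
  have hΔ : ModularForm.discriminant z ≠ 0 := ModularForm.discriminant_ne_zero z
  have h4 : denom γ z ^ (4 : ℤ) = denom γ z ^ (4 : ℕ) := by norm_cast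
  have h12 : denom γ z ^ (12 : ℤ) = denom γ z ^ (12 : ℕ) := by norm_cast
  rw [h4, h12]
  field_simp

theorem twistedFun_mdifferentiable (hU : IsUnitaryChar Γ χ) : MDiff (twistedFun Γ χ) := by
  have h1 : MDiff (eisChar Γ χ 4) := eisChar_mdifferentiable hU (by norm_num)
  have h2 : MDiff (E₄ : ℍ → ℂ) := ModularFormClass.holo E₄
  have h3 : MDiff (CuspForm.discriminant : ℍ → ℂ) := CuspFormClass.holo CuspForm.discriminant
  have h4 : MDiff (fun z : ℍ => (CuspForm.discriminant z)⁻¹) := by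
    rw [UpperHalfPlane.mdifferentiable_iff] at h3 ⊢
    have h6 : DifferentiableOn ℂ (fun w : ℂ => ((CuspForm.discriminant : ℍ → ℂ) ∘ ofComplex) w)⁻¹
        {z : ℂ | 0 < z.im} :=
      h3.inv (fun w _ => ModularForm.discriminant_ne_zero _)
    exact h6
  have h5 : twistedFun Γ χ =
      fun z => (eisChar Γ χ 4 z * (E₄ z * E₄ z)) * (CuspForm.discriminant z)⁻¹ := by
    funext z
    unfold twistedFun
    rw [div_eq_mul_inv, pow_two]
    rfl
  rw [h5]
  exact (h1.mul (h2.mul h2)).mul h4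


theorem twistedFun_ne_zero (hT : IsTrivialAtInfty Γ χ) (hU : IsUnitaryChar Γ χ)
    (hneg : ∃ γ : Γ, (γ : SL(2, ℤ)) = -1 ∧ χ γ = 1) : twistedFun Γ χ ≠ 0 := by
  have h1 : ∀ᶠ z in atImInfty, eisChar Γ χ 4 z ≠ 0 :=
    (tendsto_eisChar_two hT hU (by norm_num) (by decide) hneg).eventually_ne two_ne_zero
  have h2 : ∀ᶠ z in atImInfty, (E₄ : ℍ → ℂ) z ≠ 0 :=
    tendsto_E4_one.eventually_ne one_ne_zero
  obtain ⟨z, hz1, hz2⟩ := (h1.and h2).exists
  intro h0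
  have := congrFun h0 z
  simp only [twistedFun, Pi.zero_apply, div_eq_zero_iff, mul_eq_zero, pow_eq_zero_iff,
    ne_eq, OfNat.ofNat_ne_zero, not_false_eq_true] at this
  rcases this with (h | h) | h
  · exact hz1 h
  · exact hz2 h
  · exact ModularForm.discriminant_ne_zero z h

theorem twistedFun_moderateGrowth (hU : IsUnitaryChar Γ χ) :
    Fermat.Agent.H94.EsA.HasModerateGrowth (twistedFun Γ χ) := by
  intro γ
  obtain ⟨B₁, Y₁, h1⟩ := UpperHalfPlane.isBoundedAtImInfty_iff.mp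
    (isBoundedAtImInfty_eisChar_slash (Γ := Γ) (χ := χ) hU (k := 4) (by norm_num) γ)
  obtain ⟨B₂, Y₂, h2⟩ := UpperHalfPlane.isBoundedAtImInfty_iff.mp
    (ModularFormClass.bdd_at_infty E₄)
  obtain ⟨C₃, h3⟩ := ModularForm.exp_isBigO_discriminant.bound
  rw [Filter.Eventually, atImInfty_mem] at h3
  obtain ⟨Y₃, h3⟩ := h3
  have hB₁ : 0 ≤ B₁ := (norm_nonneg _).trans (h1 ⟨⟨0, max Y₁ 1⟩, by positivity⟩ (le_max_left _ _))
  have hB₂ : 0 ≤ B₂ := (norm_nonneg _).trans (h2 ⟨⟨0, max Y₂ 1⟩, by positivity⟩ (le_max_left _ _))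
  have hC₃ : 0 ≤ C₃ := by
    have h := h3 ⟨⟨0, max Y₃ 1⟩, by positivity⟩ (le_max_left _ _)
    simp only [Set.mem_ofPred_eq] at h
    have hΔ : 0 < ‖ModularForm.discriminant ⟨⟨0, max Y₃ 1⟩, by positivity⟩‖ :=
      norm_pos_iff.mpr (ModularForm.discriminant_ne_zero _)
    by_contra hneg
    push Not at hneg
    have : C₃ * ‖ModularForm.discriminant ⟨⟨0, max Y₃ 1⟩, by positivity⟩‖ < 0 :=
      mul_neg_of_neg_of_pos hneg hΔ
    linarith [norm_nonneg (Real.exp (-2 * Real.pi * (⟨⟨0, max Y₃ 1⟩, by positivity⟩ : ℍ).im))]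
  refine ⟨1, B₁ * B₂ ^ 2 * C₃, max Y₁ (max Y₂ Y₃), by positivity, fun z hz => ?_⟩
  have hz1 : Y₁ ≤ z.im := (le_max_left _ _).trans hz
  have hz2 : Y₂ ≤ z.im := ((le_max_left _ _).trans (le_max_right _ _)).trans hz
  have hz3 : Y₃ ≤ z.im := ((le_max_right _ _).trans (le_max_right _ _)).trans hz
  rw [twistedFun_smul_SL, norm_div, norm_mul, norm_pow]
  have hΔ : 0 < ‖ModularForm.discriminant z‖ :=
    norm_pos_iff.mpr (ModularForm.discriminant_ne_zero z)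
  have h3' := h3 z hz3
  simp only [Set.mem_ofPred_eq, Real.norm_of_nonneg (Real.exp_pos _).le] at h3'
  have hexp : Real.exp (-2 * Real.pi * z.im) * Real.exp (2 * Real.pi * ((1 : ℕ) : ℝ) * z.im) = 1 := by
    rw [← Real.exp_add]
    have : -2 * Real.pi * z.im + 2 * Real.pi * ((1 : ℕ) : ℝ) * z.im = 0 := by
      push_cast
      ring
    rw [this, Real.exp_zero]
  rw [div_le_iff₀ hΔ]
  have hnum : ‖(eisChar Γ χ 4 ∣[(4 : ℤ)] γ) z‖ * ‖E₄ z‖ ^ 2 ≤ B₁ * B₂ ^ 2 :=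
    mul_le_mul (h1 z hz1) (pow_le_pow_left₀ (norm_nonneg _) (h2 z hz2) 2) (by positivity) hB₁
  have hE : 0 < Real.exp (2 * Real.pi * ((1 : ℕ) : ℝ) * z.im) := Real.exp_pos _
  calc ‖(eisChar Γ χ 4 ∣[(4 : ℤ)] γ) z‖ * ‖E₄ z‖ ^ 2
      ≤ B₁ * B₂ ^ 2 := hnum
    _ = B₁ * B₂ ^ 2 * (Real.exp (-2 * Real.pi * z.im) *
          Real.exp (2 * Real.pi * ((1 : ℕ) : ℝ) * z.im)) := by rw [hexp, mul_one]
    _ ≤ B₁ * B₂ ^ 2 * ((C₃ * ‖ModularForm.discriminant z‖) *
          Real.exp (2 * Real.pi * ((1 : ℕ) : ℝ) * z.im)) := by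
        gcongr
    _ = B₁ * B₂ ^ 2 * C₃ * Real.exp (2 * Real.pi * ((1 : ℕ) : ℝ) * z.im) *
          ‖ModularForm.discriminant z‖ := by ring

/-- **A-EIS** (P-ES / ES-A): the twisted function statement of `Fermat.Agent.H94.EsA`. -/
theorem twistedFunction (N : ℕ) : Fermat.Agent.H94.EsA.TwistedFunctionStatement N := by
  intro χ hU hT
  have hT' : IsTrivialAtInfty (Gamma0 N) χ := fun γ hγ => hT γ (by
    have := congrFun hγ 0
    simpa [botRow] using this)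
  have hU' : IsUnitaryChar (Gamma0 N) χ := hU
  have hneg : ∃ γ : ↥(Gamma0 N), (γ : SL(2, ℤ)) = -1 ∧ χ γ = 1 := by
    have hmem : (-1 : SL(2, ℤ)) ∈ Gamma0 N := by
      rw [Gamma0_mem]
      simp
    refine ⟨⟨-1, hmem⟩, rfl, hT _ ?_⟩
    simp
  exact ⟨twistedFun (Gamma0 N) χ, twistedFun_mdifferentiable hU', twistedFun_ne_zero hT' hU' hneg,
    twistedFun_moderateGrowth hU', fun γ z => twistedFun_smul hT' hU' γ z⟩

end Fermat.Agent.H96
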