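import Fermat.Agent.H96.EisTwisted
import Fermat.Agent.H23.EsA.Parts

/-!
# [EIS] of P-ES / ES-A in the `H23.EsA` shape (helper96)

`eisCharStatement N : Fermat.Agent.H23.EsA.EisCharStatement N`.
-/

set_option autoImplicit false

noncomputable section

open UpperHalfPlane ModularForm Filter Topology CongruenceSubgroup
open scoped MatrixGroups Manifold

namespace Fermat.Agent.H96

/-- An element of `SL(2, ℤ)` with lower left entry `0` has trace `±2`. -/
theorem abs_trace_le_two_of_lower_left_zero (γ : SL(2, ℤ)) (h : γ 1 0 = 0) :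
    |(γ 0 0 + γ 1 1 : ℤ)| ≤ 2 := by
  have hdet := γ.det_coe
  rw [Matrix.det_fin_two, h, mul_zero, sub_zero] at hdet
  have h1 : IsUnit (γ 0 0 : ℤ) := IsUnit.of_mul_eq_one _ hdet
  rcases Int.isUnit_iff.mp h1 with h2 | h2
  · rw [h2, one_mul] at hdet
    rw [h2, hdet]
    norm_num
  · rw [h2] at hdet
    have h3 : (γ 1 1 : ℤ) = -1 := by linarith
    rw [h2, h3]
    norm_num

/-- **[EIS]** (P-ES / ES-A), in the shape of `Fermat.Agent.H23.EsA`. -/
theorem eisCharStatement (N : ℕ) [NeZero N] : Fermat.Agent.H23.EsA.EisCharStatement N := by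
  intro m χ hm hχm hχ
  have hU : IsUnitaryChar (Gamma0 N) χ := isUnitaryChar_of_pow_eq_one hm.ne' hχm
  obtain ⟨G, hG, hG0, hgrow, hchar⟩ := twistedFunction N χ hU
    (fun γ hγ => hχ γ (abs_trace_le_two_of_lower_left_zero _ hγ))
  refine ⟨G, hG, hG0, hchar, fun γ => ?_⟩
  obtain ⟨M, C, Y, -, h⟩ := hgrow γ
  exact ⟨M, C, Y, h⟩

end Fermat.Agent.H96
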