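import Fermat.Agent.H19.Defs
import Fermat.Agent.H80.HolomorphicDivision
import Fermat.Agent.H15.Ramanujan

/-!
# Division of `Γ₀(N)`-forms by level-one forms (P-DIM framework piece F1)

All statements are in the vocabulary of `Fermat.Agent.H19.IsMF` (plain functions `ℍ → ℂ`).

* `isMF_div_levelOne`: if `P` is a level-one modular form of weight `m` with only simple zeros
  and `P → 1` at `i∞`, and `f` is a weight-`k` form on `Γ₀(N)` vanishing at the zeros of `P`,
  then `f = P * f₁` with `f₁` a weight-`k - m` form on `Γ₀(N)`.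
* `isMF_div_E4`, `isMF_div_E6`: the regular-sequence statements
  `E₆ f = E₄ g ⟹ E₄ ∣ f` and `E₄ f = E₆ g ⟹ E₆ ∣ f`.
-/

set_option autoImplicit false

open UpperHalfPlane ModularForm CongruenceSubgroup Filter EisensteinSeries
open scoped MatrixGroups Manifold Topology

noncomputable section

namespace Fermat.Agent.H96

open Fermat.Agent.H19

/-- A level-one modular form is slash-invariant under every element of `SL(2,ℤ)`. -/
theorem slash_levelOne_eq {m : ℤ} (P : ModularForm 𝒮ℒ m) (g : SL(2, ℤ)) :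
    (P : ℍ → ℂ) ∣[m] g = P := by
  have hg : (g : GL (Fin 2) ℝ) ∈ 𝒮ℒ := ⟨g, rfl⟩
  rw [SL_slash]
  exact SlashInvariantFormClass.slash_action_eq P _ hg

/-- Cancellation: if `P` is holomorphic with only simple zeros, `d` is continuous and
`P * d = 0` then `d = 0`. -/
theorem eq_zero_of_mul_eq_zero_of_simple {P d : ℍ → ℂ}
    (hsimple : ∀ z : ℍ, P z = 0 → deriv (P ∘ ofComplex) z ≠ 0)
    (hd : Continuous d) (h : ∀ z, P z * d z = 0) : ∀ z, d z = 0 := by
  intro z₀
  by_contra hne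
  have hP0 : P z₀ = 0 := by
    rcases mul_eq_zero.mp (h z₀) with h1 | h1
    · exact h1
    · exact absurd h1 hne
  have h1 : ∀ᶠ z in 𝓝 z₀, d z ≠ 0 := hd.continuousAt.eventually_ne hne
  have h2 : ∀ᶠ z in 𝓝 z₀, P z = 0 := by
    filter_upwards [h1] with z hz
    rcases mul_eq_zero.mp (h z) with h3 | h3
    · exact h3
    · exact absurd h3 hz
  have hcont : ContinuousAt (ofComplex : ℂ → ℍ) (z₀ : ℂ) :=
    (mdifferentiableAt_ofComplex z₀.im_pos).continuousAt
  have h3 : ∀ᶠ w in 𝓝 (z₀ : ℂ), (P ∘ ofComplex) w = 0 := by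
    have := hcont.eventually (by rwa [ofComplex_apply] : ∀ᶠ z in 𝓝 (ofComplex (z₀ : ℂ)), P z = 0)
    exact this
  have h4 : deriv (P ∘ ofComplex) z₀ = 0 := by
    have hev : (P ∘ ofComplex) =ᶠ[𝓝 (z₀ : ℂ)] fun _ => (0 : ℂ) := h3
    rw [hev.deriv_eq]
    simp
  exact hsimple z₀ hP0 h4

/-- If `P → 1` at `i∞` and `P * h` is bounded at `i∞` then `h` is bounded at `i∞`. -/
theorem isBoundedAtImInfty_of_mul {P h : ℍ → ℂ} (hP : Tendsto P atImInfty (𝓝 1))
    (hb : IsBoundedAtImInfty (P * h)) : IsBoundedAtImInfty h := by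
  rw [IsBoundedAtImInfty, BoundedAtFilter] at hb ⊢
  have hev : ∀ᶠ z in atImInfty, (1 / 2 : ℝ) ≤ ‖P z‖ := by
    have h1 : Tendsto (fun z => ‖P z‖) atImInfty (𝓝 ‖(1 : ℂ)‖) := hP.norm
    rw [norm_one] at h1
    exact h1.eventually (eventually_ge_nhds (by norm_num))
  have hO : h =O[atImInfty] (P * h) := by
    refine Asymptotics.IsBigO.of_bound 2 ?_
    filter_upwards [hev] with z hz
    rw [Pi.mul_apply, norm_mul]
    have : 0 ≤ ‖h z‖ := norm_nonneg _
    nlinarith
  exact hO.trans hb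

/-- **Division by a level-one form.** Let `P` be a level-one modular form of weight `m` all of
whose zeros are simple and with `P → 1` at `i∞`. If `f` is a modular form of weight `k` on
`Γ₀(N)` vanishing at all zeros of `P`, then `f = P * f₁` with `f₁` a modular form of weight
`k - m` on `Γ₀(N)`. -/
theorem isMF_div_levelOne (N : ℕ) (k m : ℤ) (P : ModularForm 𝒮ℒ m)
    (hsimple : ∀ z : ℍ, P z = 0 → deriv ((P : ℍ → ℂ) ∘ ofComplex) z ≠ 0)
    (hlim : Tendsto P atImInfty (𝓝 1))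
    {f : ℍ → ℂ} (hf : IsMF N k f) (hvanish : ∀ z : ℍ, P z = 0 → f z = 0) :
    ∃ f₁ : ℍ → ℂ, IsMF N (k - m) f₁ ∧ ∀ z, f z = P z * f₁ z := by
  obtain ⟨f₁, hf₁, hff₁⟩ :=
    Fermat.Agent.H80.exists_mdiff_quotient hf.holo P.holo' hsimple hvanish
  have hfun : f = (P : ℍ → ℂ) * f₁ := funext hff₁
  have hk : k = m + (k - m) := by ring
  have hslash : ∀ g : SL(2, ℤ), f ∣[k] g = (P : ℍ → ℂ) * (f₁ ∣[k - m] g) := by
    intro g
    conv_lhs => rw [hfun, hk]
    rw [mul_slash_SL2, slash_levelOne_eq]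
  refine ⟨f₁, ⟨hf₁, ?_, ?_⟩, hff₁⟩
  · intro γ hγ
    have h1 : (P : ℍ → ℂ) * (f₁ ∣[k - m] γ) = (P : ℍ → ℂ) * f₁ := by
      rw [← hslash γ, hf.inv γ hγ, hfun]
    have hcont : Continuous ((f₁ ∣[k - m] γ) - f₁) := by
      have h2 : MDiff (f₁ ∣[k - m] γ) := by
        rw [SL_slash]
        exact hf₁.slash _ _
      exact (h2.continuous).sub hf₁.continuous
    funext z
    have := eq_zero_of_mul_eq_zero_of_simple hsimple hcont (fun z => by
      have := congrFun h1 z
      simp only [Pi.mul_apply, Pi.sub_apply] at this ⊢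
      rw [mul_sub, this, sub_self]) z
    simpa [sub_eq_zero] using this
  · intro g
    refine isBoundedAtImInfty_of_mul hlim ?_
    rw [← hslash g]
    exact hf.bdd g

end Fermat.Agent.H96
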